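import Mathlib

/-!
# Reductions of finitely many algebraic numbers modulo almost all primes
-/

set_option autoImplicit false

noncomputable section

namespace FA.GlobalNilpotence

/-- The ring generated by finitely many algebraic numbers maps to a field of characteristic `p` for
almost all primes `p`. -/
theorem exists_reduction (s : Finset ℂ) (hs : ∀ x ∈ s, IsAlgebraic ℚ x) :
    ∃ N : ℕ, ∀ p : ℕ, p.Prime → N < p → ∃ (k : Type) (_ : Field k) (_ : IsAlgClosed k)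
      (_ : CharP k p), Nonempty (Algebra.adjoin ℤ (s : Set ℂ) →+* k) := by
  have hex : ∀ x : ℂ, ∃ D : ℤ, D ≠ 0 ∧ (x ∈ s → IsIntegral ℤ ((D : ℂ) * x)) := fun x => by
    by_cases hx : x ∈ s
    · obtain ⟨D, hD, hint⟩ :=
        ((IsFractionRing.isAlgebraic_iff ℤ ℚ ℂ).2 (hs x hx)).exists_integral_multiple
      exact ⟨D, hD, fun _ => by rwa [zsmul_eq_mul] at hint⟩
    · exact ⟨1, one_ne_zero, fun h => absurd h hx⟩
  choose D hD0 hD using hex
  obtain ⟨M, hM⟩ : ∃ M : ℤ, M = ∏ x ∈ s, D x := ⟨_, rfl⟩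
  have hM0 : M ≠ 0 := hM ▸ Finset.prod_ne_zero_iff.2 fun x _ => hD0 x
  have hMint : ∀ m : ℕ, IsIntegral ℤ ((M : ℂ) ^ m) := fun m =>
    (isIntegral_algebraMap (R := ℤ) (x := M)).pow m
  have hden : ∀ y ∈ Algebra.adjoin ℤ (s : Set ℂ), ∃ m : ℕ, IsIntegral ℤ ((M : ℂ) ^ m * y) := by
    intro y hy
    refine Algebra.adjoin_induction (fun x hx => ⟨1, ?_⟩) (fun z => ⟨0, ?_⟩)
      (fun x y _ _ hx hy => ?_) (fun x y _ _ hx hy => ?_) hy
    · obtain ⟨t, ht⟩ := hM ▸ Finset.dvd_prod_of_mem D (Finset.mem_coe.1 hx)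
      rw [ht, pow_one, Int.cast_mul, mul_comm (D x : ℂ), mul_assoc]
      exact (isIntegral_algebraMap (R := ℤ) (x := t)).mul (hD x (Finset.mem_coe.1 hx))
    · simpa using isIntegral_algebraMap (R := ℤ) (A := ℂ) (x := z)
    · obtain ⟨i, hi⟩ := hx
      obtain ⟨j, hj⟩ := hy
      refine ⟨i + j, ?_⟩
      rw [show (M : ℂ) ^ (i + j) * (x + y) =
        (M : ℂ) ^ j * ((M : ℂ) ^ i * x) + (M : ℂ) ^ i * ((M : ℂ) ^ j * y) by ring]
      exact ((hMint j).mul hi).add ((hMint i).mul hj)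
    · obtain ⟨i, hi⟩ := hx
      obtain ⟨j, hj⟩ := hy
      exact ⟨i + j, by
        rw [show (M : ℂ) ^ (i + j) * (x * y) =
          ((M : ℂ) ^ i * x) * ((M : ℂ) ^ j * y) by ring]
        exact hi.mul hj⟩
  refine ⟨M.natAbs, fun p hp hlt => ?_⟩
  have hne : Ideal.span {(p : Algebra.adjoin ℤ (s : Set ℂ))} ≠ ⊤ := by
    rw [Ne, Ideal.span_singleton_eq_top]
    intro hu
    obtain ⟨⟨y, hy⟩, hpy⟩ := hu.exists_right_inv
    obtain ⟨m, hm⟩ := hden y hy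
    have hpy' : (p : ℂ) * y = 1 := by simpa using congrArg Subtype.val hpy
    have hp0 : (p : ℂ) ≠ 0 := Nat.cast_ne_zero.2 hp.ne_zero
    have hq : (M : ℂ) ^ m * y = algebraMap ℚ ℂ ((M : ℚ) ^ m / (p : ℚ)) := by
      rw [eq_ratCast]
      push_cast
      rw [eq_div_iff hp0]
      linear_combination (M : ℂ) ^ m * hpy'
    rw [hq, isIntegral_algebraMap_iff (algebraMap ℚ ℂ).injective] at hm
    obtain ⟨z, hz⟩ := IsIntegrallyClosed.isIntegral_iff.1 hm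
    rw [algebraMap_int_eq, eq_intCast, eq_div_iff (Nat.cast_ne_zero.2 hp.ne_zero)] at hz
    have hdvd : (p : ℤ) ∣ M ^ m := ⟨z, by exact_mod_cast (hz.symm.trans (mul_comm _ _))⟩
    have h := Nat.le_of_dvd (Int.natAbs_pos.2 hM0)
      (Int.natCast_dvd.1 ((Nat.prime_iff_prime_int.1 hp).dvd_of_dvd_pow hdvd))
    omega
  obtain ⟨m, hm, hle⟩ := Ideal.exists_le_maximal _ hne
  let : Field (Algebra.adjoin ℤ (s : Set ℂ) ⧸ m) := Ideal.Quotient.field m
  obtain ⟨φ, hφ⟩ : ∃ φ : Algebra.adjoin ℤ (s : Set ℂ) →+*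
      AlgebraicClosure (Algebra.adjoin ℤ (s : Set ℂ) ⧸ m),
      φ = (algebraMap _ (AlgebraicClosure (Algebra.adjoin ℤ (s : Set ℂ) ⧸ m))).comp
        (Ideal.Quotient.mk m) := ⟨_, rfl⟩
  have hp' : (p : AlgebraicClosure (Algebra.adjoin ℤ (s : Set ℂ) ⧸ m)) = 0 := by
    rw [← map_natCast φ, hφ, RingHom.comp_apply,
      Ideal.Quotient.eq_zero_iff_mem.2 (hle (Ideal.mem_span_singleton_self _)), map_zero]
  obtain ⟨q, hq⟩ := CharP.exists (AlgebraicClosure (Algebra.adjoin ℤ (s : Set ℂ) ⧸ m))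
  obtain rfl : q = p := ((Nat.dvd_prime hp).1 ((CharP.cast_eq_zero_iff _ q p).1 hp')).resolve_left
    (CharP.char_ne_one (AlgebraicClosure (Algebra.adjoin ℤ (s : Set ℂ) ⧸ m)) q)
  exact ⟨_, inferInstance, inferInstance, hq, ⟨φ⟩⟩

end FA.GlobalNilpotence
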