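import Fermat.Agent.GlobalNilpotence.Weights
import Fermat.Agent.GlobalNilpotence.Reduction
import Fermat.Agent.KroneckerHonda.Residues

/-!
# The theorem of Katz on globally nilpotent equations

If the `p`-curvatures of `a n y⁽ⁿ⁾ + … + a 0 y = 0` with `a j ∈ ℤ[X]` are nilpotent for almost all
primes (or just for enough of them, `NilpotentEnough`), then all singularities, infinity included,
are regular and all exponents are rational.
-/

set_option autoImplicit false

noncomputable section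

namespace FA.GlobalNilpotence

open Polynomial Fermat.Agent.RootsModP

/-- The `p`-curvature is nilpotent for almost all primes `p`. -/
def GloballyNilpotent (a : ℕ → ℤ[X]) (n : ℕ) : Prop :=
  {p : ℕ | p.Prime ∧
    ¬IsNilpotent (connMat (fun j => (a j).map (Int.castRingHom (ZMod p))) n p)}.Finite

/-- The `p`-curvature is nilpotent for arbitrarily large primes `p`, also among the primes modulo
which a given irreducible polynomial of degree at least two has no root. -/
def NilpotentEnough (a : ℕ → ℤ[X]) (n : ℕ) : Prop :=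
  (∀ N : ℕ, ∃ p, p.Prime ∧ N < p ∧
    IsNilpotent (connMat (fun j => (a j).map (Int.castRingHom (ZMod p))) n p)) ∧
  ∀ g : ℤ[X], g.Monic → Irreducible (g.map (Int.castRingHom ℚ)) → 2 ≤ g.natDegree →
    ∀ N : ℕ, ∃ p, p.Prime ∧ N < p ∧ rootsMod g p = 0 ∧
      IsNilpotent (connMat (fun j => (a j).map (Int.castRingHom (ZMod p))) n p)

theorem GloballyNilpotent.enough {a : ℕ → ℤ[X]} {n : ℕ} (h : GloballyNilpotent a n) :
    NilpotentEnough a n := by
  obtain ⟨N₀, hN₀⟩ := h.bddAbove
  have hgood : ∀ p, p.Prime → N₀ < p →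
      IsNilpotent (connMat (fun j => (a j).map (Int.castRingHom (ZMod p))) n p) :=
    fun p hp hlt => by_contra fun hnot => hlt.not_ge (hN₀ ⟨hp, hnot⟩)
  refine ⟨fun N => ?_, fun g hg hirr hd N => ?_⟩
  · obtain ⟨p, hlt, hp⟩ := Nat.exists_infinite_primes (max N N₀ + 1)
    exact ⟨p, hp, by omega, hgood p hp (by omega)⟩
  · obtain ⟨p, ⟨hp, hroot⟩, hlt⟩ :=
      (FA.KroneckerHonda.infinite_no_root hg hirr hd).exists_gt (max N N₀)
    exact ⟨p, hp, by omega, hroot, hgood p hp (by omega)⟩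

/-- The equation moved to the point `r`. -/
def shifted {R : Type*} [CommRing R] (a : ℕ → ℤ[X]) (r : R) (j : ℕ) : R[X] :=
  ((a j).map (Int.castRingHom R)).comp (X + C r)

theorem shifted_map {R S : Type*} [CommRing R] [CommRing S] (φ : R →+* S) (a : ℕ → ℤ[X]) (r : R)
    (j : ℕ) : (shifted a r j).map φ = shifted a (φ r) j := by
  simp [shifted, map_comp, Polynomial.map_map, RingHom.ext_int (φ.comp _) (Int.castRingHom S)]

theorem shifted_zero (a : ℕ → ℤ[X]) :
    shifted a (0 : ℂ) = fun j => (a j).map (Int.castRingHom ℂ) := by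
  ext1 j
  simp [shifted]

theorem coeff_shifted {R S : Type*} [CommRing R] [CommRing S] (φ : R →+* S) (a : ℕ → ℤ[X]) (r : R)
    (j e : ℕ) : (shifted a (φ r) j).coeff e = φ ((shifted a r j).coeff e) := by
  rw [← shifted_map, coeff_map]

theorem indicialPoly_shifted {R S : Type*} [CommRing R] [CommRing S] (φ : R →+* S) (a : ℕ → ℤ[X])
    (r : R) (n v : ℕ) :
    (indicialPoly (shifted a r) n v).map φ = indicialPoly (shifted a (φ r)) n v := by
  rw [indicialPoly_map]
  simp only [shifted_map]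

theorem isNilpotent_connMat_shifted {a : ℕ → ℤ[X]} {n p : ℕ}
    (h : IsNilpotent (connMat (fun j => (a j).map (Int.castRingHom (ZMod p))) n p))
    (k : Type) [Field k] [CharP k p] (ρ : k) : IsNilpotent (connMat (shifted a ρ) n p) := by
  have h1 := isNilpotent_connMat_map
    (mapRingHom_derivative (ZMod.castHom (dvd_refl p) k)) h
  have h2 := isNilpotent_connMat_map (translate_derivative ρ) h1
  rw [show shifted a ρ = fun j => ((a j).map (Int.castRingHom k)).comp (X + C ρ) from rfl]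
  simpa [Polynomial.map_map,
    RingHom.ext_int ((ZMod.castHom (dvd_refl p) k).comp _) (Int.castRingHom k)] using h2

theorem map_ne_zero_of_inv_mem {k : Type*} [Field k] {s : Set ℂ} (φ : Algebra.adjoin ℤ s →+* k)
    (x : Algebra.adjoin ℤ s) (hx : (x : ℂ) ≠ 0) (hinv : (x : ℂ)⁻¹ ∈ s) : φ x ≠ 0 :=
  left_ne_zero_of_mul_eq_one (b := φ ⟨_, Algebra.subset_adjoin hinv⟩) (by
    rw [← map_mul, show x * ⟨_, Algebra.subset_adjoin hinv⟩ = 1 from
      Subtype.ext (mul_inv_cancel₀ hx), map_one])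

variable {a : ℕ → ℤ[X]} {n v : ℕ} {r : ℂ} {ε : ℤ}

theorem isAlgebraic_coeff_shifted (hr : IsAlgebraic ℚ r) (j e : ℕ) :
    IsAlgebraic ℚ ((shifted a r j).coeff e) := by
  rw [show r = (algebraicClosure ℚ ℂ).toSubfield.subtype
    ⟨r, mem_algebraicClosure_iff'.2 hr.isIntegral⟩ from rfl, coeff_shifted]
  exact (mem_algebraicClosure_iff'.1 (Subtype.coe_prop _)).isAlgebraic

/-- **Regularity.** -/
theorem regular_shifted (hgn : NilpotentEnough a n) (hr : IsAlgebraic ℚ r)
    (hε : ε = 1 ∨ ε = -1)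
    (hv : ∀ e : ℕ, (shifted a r n).coeff e ≠ 0 → ε * (v : ℤ) ≤ ε * (e : ℤ))
    (hq : (shifted a r n).coeff v ≠ 0) (l : ℕ) (hl : l ≤ n) (e : ℕ)
    (he : (shifted a r l).coeff e ≠ 0) :
    ε * ((v : ℤ) - ((n : ℤ) - (l : ℤ))) ≤ ε * (e : ℤ) := by
  obtain ⟨s, hs⟩ : ∃ s : Finset ℂ,
      s = {r, ((shifted a r n).coeff v)⁻¹, ((shifted a r l).coeff e)⁻¹} := ⟨_, rfl⟩
  obtain ⟨N₂, hN₂⟩ := exists_reduction s fun x hx => by
    simp only [hs, Finset.mem_insert, Finset.mem_singleton] at hx
    rcases hx with rfl | rfl | rfl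
    · exact hr
    all_goals exact (isAlgebraic_coeff_shifted hr _ _).inv
  obtain ⟨p, hp, hlt, hnil⟩ := hgn.1 N₂
  obtain ⟨k, _, _, _, ⟨φ⟩⟩ := hN₂ p hp (by omega)
  obtain ⟨rB, hrB⟩ : ∃ rB : Algebra.adjoin ℤ (s : Set ℂ), (rB : ℂ) = r :=
    ⟨⟨r, Algebra.subset_adjoin (by simp [hs])⟩, rfl⟩
  have hcast : ∀ j i : ℕ, (shifted a r j).coeff i =
      (((shifted a rB j).coeff i : Algebra.adjoin ℤ (s : Set ℂ)) : ℂ) := fun j i => by
    rw [← hrB]
    exact coeff_shifted (Algebra.adjoin ℤ (s : Set ℂ)).val.toRingHom a rB j i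
  have hne : ∀ j i : ℕ, ((shifted a r j).coeff i)⁻¹ ∈ (s : Set ℂ) →
      (shifted a r j).coeff i ≠ 0 → (shifted a (φ rB) j).coeff i ≠ 0 := fun j i hmem h => by
    rw [coeff_shifted]
    rw [hcast] at hmem h
    exact map_ne_zero_of_inv_mem φ _ h hmem
  refine regular_of_isNilpotent hε (fun i hi => hv i fun h0 => hi ?_)
    (hne n v (by simp [hs]) hq) (isNilpotent_connMat_shifted hnil k (φ rB)) l hl e
    (hne l e (by simp [hs]) he)
  rw [coeff_shifted, show (shifted a rB n).coeff i = 0 from Subtype.ext ((hcast n i).symm.trans h0),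
    map_zero]

theorem indicialPoly_ne_zero {R : Type*} [CommRing R] [IsDomain R] {b : ℕ → R[X]} {m : ℕ}
    (hq : (b n).coeff m ≠ 0) : indicialPoly b n m ≠ 0 := fun h0 => hq (by
  have h : (indicialPoly b n m).coeff n = (b n).coeff m := by
    rw [indicialPoly, finsetSum_coeff, Finset.sum_range_succ, Finset.sum_eq_zero fun l hl => ?_,
      zero_add, coeff_C_mul]
    · have h1 : (descPochhammer R n).coeff n = 1 := by
        have := (monic_descPochhammer R n).coeff_natDegree
        rwa [descPochhammer_natDegree] at this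
      rw [h1, mul_one]
      simp [indicialCoeff]
    · rw [coeff_C_mul, coeff_eq_zero_of_natDegree_lt
        (by rw [descPochhammer_natDegree]; exact Finset.mem_range.1 hl), mul_zero]
  rw [← h, h0, coeff_zero])

/-- **The exponents are rational.** -/
theorem exponent_rational_shifted (hgn : NilpotentEnough a n) (hr : IsAlgebraic ℚ r)
    (hε : ε = 1 ∨ ε = -1)
    (hv : ∀ e : ℕ, (shifted a r n).coeff e ≠ 0 → ε * (v : ℤ) ≤ ε * (e : ℤ))
    (hq : (shifted a r n).coeff v ≠ 0) {ρ : ℂ}
    (hρ : (indicialPoly (shifted a r) n v).IsRoot ρ) : ∃ q : ℚ, ρ = (q : ℂ) := by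
  have hρalg : IsAlgebraic ℚ ρ := by
    obtain ⟨rF, hrF⟩ : ∃ rF : algebraicClosure ℚ ℂ, (rF : ℂ) = r :=
      ⟨⟨r, mem_algebraicClosure_iff'.2 hr.isIntegral⟩, rfl⟩
    have h1 : IsAlgebraic (algebraicClosure ℚ ℂ) ρ :=
      ⟨indicialPoly (shifted a rF) n v, indicialPoly_ne_zero fun h0 => hq (by
          rw [← hrF]
          exact (coeff_shifted (algebraMap (algebraicClosure ℚ ℂ) ℂ) a rF n v).trans
            (by rw [h0, map_zero])), by
        rw [aeval_def, ← eval_map, indicialPoly_shifted]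
        exact hρ.eq_zero ▸ hrF ▸ rfl⟩
    have : Algebra.IsAlgebraic ℚ (algebraicClosure ℚ ℂ) := ⟨fun x =>
      (isAlgebraic_algHom_iff (algebraicClosure ℚ ℂ).val
        (algebraicClosure ℚ ℂ).val.injective).1 (mem_algebraicClosure_iff.1 x.2)⟩
    exact IsAlgebraic.restrictScalars ℚ h1
  obtain ⟨D, hD, hDint⟩ :=
    ((IsFractionRing.isAlgebraic_iff ℤ ℚ ℂ).2 hρalg).exists_integral_multiple
  rw [zsmul_eq_mul] at hDint
  obtain ⟨g, hg⟩ : ∃ g : ℤ[X], g = minpoly ℤ ((D : ℂ) * ρ) := ⟨_, rfl⟩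
  have hgm : g.Monic := hg ▸ minpoly.monic hDint
  have hgirr : Irreducible (g.map (Int.castRingHom ℚ)) :=
    (hgm.irreducible_iff_irreducible_map_fraction_map (K := ℚ)).1 (hg ▸ minpoly.irreducible hDint)
  have hg0 : aeval ((D : ℂ) * ρ) g = 0 := hg ▸ minpoly.aeval ℤ _
  have hgd : g.natDegree ≤ 1 := by
    by_contra hgd
    obtain ⟨s, hs⟩ : ∃ s : Finset ℂ, s = {r, ρ, ((shifted a r n).coeff v)⁻¹} := ⟨_, rfl⟩
    obtain ⟨N₂, hN₂⟩ := exists_reduction s fun x hx => by
      simp only [hs, Finset.mem_insert, Finset.mem_singleton] at hx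
      rcases hx with rfl | rfl | rfl
      · exact hr
      · exact hρalg
      · exact (isAlgebraic_coeff_shifted hr _ _).inv
    obtain ⟨p, hp, hlt, hroot, hnil⟩ := hgn.2 g hgm hgirr (by omega) N₂
    have : Fact p.Prime := ⟨hp⟩
    obtain ⟨k, _, _, _, ⟨φ⟩⟩ := hN₂ p hp (by omega)
    obtain ⟨ι, hι⟩ : ∃ ι : Algebra.adjoin ℤ (s : Set ℂ) →+* ℂ,
        ι = (Algebra.adjoin ℤ (s : Set ℂ)).val.toRingHom := ⟨_, rfl⟩
    have hinj : Function.Injective ι := hι ▸ Subtype.val_injective
    obtain ⟨rB, hrB⟩ : ∃ rB, ι rB = r :=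
      ⟨⟨r, Algebra.subset_adjoin (by simp [hs])⟩, by rw [hι]; rfl⟩
    obtain ⟨ρB, hρB⟩ : ∃ ρB, ι ρB = ρ :=
      ⟨⟨ρ, Algebra.subset_adjoin (by simp [hs])⟩, by rw [hι]; rfl⟩
    have hqk : (shifted a (φ rB) n).coeff v ≠ 0 := by
      have h0 : ι ((shifted a rB n).coeff v) = (shifted a r n).coeff v := by
        rw [← coeff_shifted, hrB]
      subst hι
      rw [coeff_shifted]
      refine map_ne_zero_of_inv_mem φ _ (fun h => hq (h0.symm.trans h)) ?_
      exact (congrArg (fun x : ℂ => x⁻¹ ∈ (s : Set ℂ)) h0).mpr (by simp [hs])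
    have hroot' : (indicialPoly (shifted a (φ rB)) n v).IsRoot (φ ρB) := by
      rw [← indicialPoly_shifted, IsRoot.def, eval_map_apply,
        show (indicialPoly (shifted a rB) n v).eval ρB = 0 from hinj (by
          rw [map_zero, ← eval_map_apply, indicialPoly_shifted, hrB, hρB]
          exact hρ),
        map_zero]
    obtain ⟨m, hm⟩ := exponent_natCast_of_isNilpotent hε (fun i hi => hv i fun h0 => hi (by
      rw [coeff_shifted, show (shifted a rB n).coeff i = 0 from hinj (by
        rw [map_zero, ← coeff_shifted, hrB]; exact h0), map_zero]))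
      hqk (isNilpotent_connMat_shifted hnil k (φ rB)) hroot'
    have hgB : (g.map (Int.castRingHom _)).eval ((D : Algebra.adjoin ℤ (s : Set ℂ)) * ρB) = 0 :=
      hinj (by
        rw [map_zero, ← eval_map_apply, Polynomial.map_map,
          RingHom.ext_int (ι.comp _) (algebraMap ℤ ℂ), map_mul, map_intCast, hρB,
          eval_map_algebraMap]
        exact hg0)
    have hzero : (g.map (Int.castRingHom (ZMod p))).eval ((D : ZMod p) * (m : ZMod p)) = 0 := by
      refine (ZMod.castHom (dvd_refl p) k).injective ?_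
      rw [map_zero, ← eval_map_apply, Polynomial.map_map,
        RingHom.ext_int ((ZMod.castHom (dvd_refl p) k).comp _) (φ.comp (Int.castRingHom _)),
        ← Polynomial.map_map, map_mul, map_intCast, map_natCast, ← hm, ← map_intCast φ,
        ← map_mul, eval_map_apply, hgB, map_zero]
    rw [rootsMod, Set.ncard_eq_zero (Set.toFinite _)] at hroot
    exact Set.eq_empty_iff_forall_notMem.1 hroot _ hzero
  have hg1 : g.natDegree = 1 := le_antisymm hgd (hg ▸ minpoly.natDegree_pos hDint)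
  rw [aeval_eq_sum_range, hg1, Finset.sum_range_succ, Finset.sum_range_one,
    show g.coeff 1 = 1 by rw [← hg1]; exact hgm.coeff_natDegree, zsmul_eq_mul, pow_zero, mul_one,
    one_zsmul, pow_one] at hg0
  refine ⟨-(g.coeff 0 : ℚ) / D, ?_⟩
  have hDc : (D : ℂ) ≠ 0 := Int.cast_ne_zero.2 hD
  push_cast
  rw [eq_div_iff hDc]
  linear_combination hg0

/-- A singular point is algebraic. -/
theorem isAlgebraic_of_isRoot (ha : a n ≠ 0)
    (hr : ((a n).map (Int.castRingHom ℂ)).IsRoot r) : IsAlgebraic ℚ r :=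
  ⟨(a n).map (Int.castRingHom ℚ),
    (Polynomial.map_ne_zero_iff (Int.castRingHom ℚ).injective_int).2 ha, by
      rw [aeval_def, ← eval_map, Polynomial.map_map,
        RingHom.ext_int ((algebraMap ℚ ℂ).comp _) (Int.castRingHom ℂ)]
      exact hr⟩

theorem shifted_ne_zero {j : ℕ} (ha : a j ≠ 0) (r : ℂ) : shifted a r j ≠ 0 := fun h =>
  ha (map_injective _ (Int.castRingHom ℂ).injective_int (by
    rw [Polynomial.map_zero]
    exact comp_X_add_C_eq_zero_iff.1 h))

theorem natTrailingDegree_spec {K : Type*} [Field K] {f : K[X]} (hf : f ≠ 0) :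
    (∀ e : ℕ, f.coeff e ≠ 0 → (1 : ℤ) * (f.natTrailingDegree : ℤ) ≤ 1 * (e : ℤ)) ∧
      f.coeff f.natTrailingDegree ≠ 0 :=
  ⟨fun e he => by simpa using natTrailingDegree_le_of_ne_zero he,
    trailingCoeff_nonzero_iff_nonzero.2 hf⟩

theorem natDegree_spec {K : Type*} [Field K] {f : K[X]} (hf : f ≠ 0) :
    (∀ e : ℕ, f.coeff e ≠ 0 → (-1 : ℤ) * (f.natDegree : ℤ) ≤ -1 * (e : ℤ)) ∧
      f.coeff f.natDegree ≠ 0 :=
  ⟨fun e he => by simpa using le_natDegree_of_ne_zero he, leadingCoeff_ne_zero.2 hf⟩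

/-- **Regular singularities at every finite point.** -/
theorem rootMultiplicity_le (hgn : NilpotentEnough a n) (ha : a n ≠ 0) (r : ℂ) {l : ℕ}
    (hl : l ≤ n) (hal : a l ≠ 0) :
    ((a n).map (Int.castRingHom ℂ)).rootMultiplicity r ≤
      ((a l).map (Int.castRingHom ℂ)).rootMultiplicity r + (n - l) := by
  by_cases hr : ((a n).map (Int.castRingHom ℂ)).IsRoot r
  · rw [rootMultiplicity_eq_natTrailingDegree, rootMultiplicity_eq_natTrailingDegree]
    obtain ⟨hv, hq⟩ := natTrailingDegree_spec (shifted_ne_zero ha r)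
    have h := regular_shifted hgn (isAlgebraic_of_isRoot ha hr) (Or.inl rfl) hv hq l hl _
      (natTrailingDegree_spec (shifted_ne_zero hal r)).2
    simp only [shifted] at h
    omega
  · rw [rootMultiplicity_eq_zero hr]
    exact Nat.zero_le _

/-- **A regular singularity at infinity.** -/
theorem natDegree_add_le (hgn : NilpotentEnough a n) (ha : a n ≠ 0) {l : ℕ} (hl : l ≤ n)
    (hal : a l ≠ 0) : (a l).natDegree + (n - l) ≤ (a n).natDegree := by
  obtain ⟨hv, hq⟩ := natDegree_spec (shifted_ne_zero ha 0)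
  have h := regular_shifted hgn isAlgebraic_zero (Or.inr rfl) hv hq l hl _
    (natDegree_spec (shifted_ne_zero hal 0)).2
  simp only [shifted_zero, natDegree_map_eq_of_injective (Int.castRingHom ℂ).injective_int] at h
  omega

/-- **The exponents at finite points are rational.** -/
theorem exponent_rational (hgn : NilpotentEnough a n) (ha : a n ≠ 0) (r : ℂ) {ρ : ℂ}
    (hρ : (indicialPoly (shifted a r) n
      (((a n).map (Int.castRingHom ℂ)).rootMultiplicity r)).IsRoot ρ) :
    ∃ q : ℚ, ρ = (q : ℂ) := by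
  by_cases hr : ((a n).map (Int.castRingHom ℂ)).IsRoot r
  · rw [rootMultiplicity_eq_natTrailingDegree] at hρ
    obtain ⟨hv, hq⟩ := natTrailingDegree_spec (shifted_ne_zero ha r)
    exact exponent_rational_shifted hgn (isAlgebraic_of_isRoot ha hr) (Or.inl rfl) hv hq hρ
  · rw [rootMultiplicity_eq_zero hr, indicialPoly, IsRoot.def, eval_finsetSum,
      Finset.sum_range_succ, Finset.sum_eq_zero fun l hl => ?_, zero_add, eval_mul, eval_C] at hρ
    · have h0 : indicialCoeff (shifted a r) n 0 n ≠ 0 := by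
        simpa [indicialCoeff, shifted, coeff_zero_eq_eval_zero, eval_comp] using hr
      have h1 : (descPochhammer ℂ n).eval ρ = 0 := (mul_eq_zero.1 hρ).resolve_left h0
      clear hρ h0 hr ha hgn
      induction n with
      | zero => simp at h1
      | succ m ih =>
        rw [descPochhammer_succ_eval] at h1
        rcases mul_eq_zero.1 h1 with h2 | h2
        · exact ih h2
        · exact ⟨(m : ℚ), by rw [Rat.cast_natCast]; exact sub_eq_zero.1 h2⟩
    · rw [indicialCoeff, if_neg (by have := Finset.mem_range.1 hl; omega), C_0, zero_mul,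
        eval_zero]

/-- **The exponents at infinity are rational.** -/
theorem exponent_rational_infinity (hgn : NilpotentEnough a n) (ha : a n ≠ 0) {ρ : ℂ}
    (hρ : (indicialPoly (fun j => (a j).map (Int.castRingHom ℂ)) n (a n).natDegree).IsRoot ρ) :
    ∃ q : ℚ, ρ = (q : ℂ) := by
  obtain ⟨hv, hq⟩ := natDegree_spec (shifted_ne_zero ha 0)
  refine exponent_rational_shifted hgn isAlgebraic_zero (Or.inr rfl) hv hq ?_
  simpa only [shifted_zero, natDegree_map_eq_of_injective (Int.castRingHom ℂ).injective_int]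
    using hρ

end FA.GlobalNilpotence
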