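import Mathlib

/-!
# The `p`-curvature of a linear differential equation

For `a n y⁽ⁿ⁾ + … + a 0 y = 0` with polynomial coefficients the companion system is
`Y' = (M / a n) Y` and `(d / dx - M / a n) ^ i 1 = N i / (a n) ^ i` with `N 0 = 1` and
`N (i + 1) = a n (N i)' - i (a n)' N i - M N i`.
-/

set_option autoImplicit false

noncomputable section

namespace FA.GlobalNilpotence

open Polynomial

variable {R S : Type*} [CommRing R] [CommRing S] {n : ℕ}

/-- The companion matrix times the leading coefficient. -/
def companion (a : ℕ → R[X]) (n : ℕ) : Matrix (Fin n) (Fin n) R[X] :=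
  Matrix.of fun k l =>
    if (l : ℕ) = k + 1 then a n else if (k : ℕ) + 1 = n then -a l else 0

/-- The numerators of the iterated connection. -/
def connMat (a : ℕ → R[X]) (n : ℕ) : ℕ → Matrix (Fin n) (Fin n) R[X]
  | 0 => 1
  | i + 1 => a n • (connMat a n i).map derivative -
      ((i : R[X]) * derivative (a n)) • connMat a n i - companion a n * connMat a n i

/-- A ring map commuting with the derivation commutes with the connection. -/
theorem map_connMat (ψ : R[X] →+* S[X]) (hψ : ∀ f, ψ (derivative f) = derivative (ψ f))
    (a : ℕ → R[X]) : ∀ i, (connMat a n i).map ψ = connMat (fun j => ψ (a j)) n i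
  | 0 => Matrix.map_one ψ (map_zero ψ) (map_one ψ)
  | i + 1 => by
    have ih := map_connMat ψ hψ a i
    ext k l : 2
    simp only [connMat, ← ih, Matrix.map_apply, Matrix.sub_apply, Matrix.smul_apply,
      Matrix.mul_apply, smul_eq_mul, map_sub, map_mul, map_sum, map_natCast, hψ, companion,
      Matrix.of_apply, apply_ite ψ, map_neg, map_zero]

/-- Nilpotence is kept by such maps. -/
theorem isNilpotent_connMat_map {ψ : R[X] →+* S[X]}
    (hψ : ∀ f, ψ (derivative f) = derivative (ψ f)) {a : ℕ → R[X]} {p : ℕ}
    (h : IsNilpotent (connMat a n p)) : IsNilpotent (connMat (fun j => ψ (a j)) n p) := by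
  rw [← map_connMat ψ hψ a p]
  exact h.map ψ.mapMatrix

theorem mapRingHom_derivative (φ : R →+* S) (f : R[X]) :
    mapRingHom φ (derivative f) = derivative (mapRingHom φ f) := by
  simp [derivative_map]

theorem translate_derivative (r : R) (f : R[X]) :
    compRingHom (X + C r) (derivative f) = derivative (compRingHom (X + C r) f) := by
  simp [derivative_comp]

end FA.GlobalNilpotence
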