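import Fermat.Agent.GlobalNilpotence.Companion

/-!
# Nilpotent `p`-curvature forces regular singularities with exponents in the prime field

The coefficient of `X ^ e` in the entry `(k, l)` gets the weight `s e + h (k - l)`, which is
additive for matrix products, so the extremal part of a product is that of the factors multiplied.
For an irregular equation a slope `h / s` makes the extremal part of the `p`-curvature a power of a
companion matrix with a nonzero eigenvalue. For a regular one and the slope `1` it is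
`∏ x : ZMod p, (R + q x)`, and the roots of the indicial polynomial are eigenvalues of `R`.
-/

set_option autoImplicit false

noncomputable section

namespace FA.GlobalNilpotence

open Polynomial

section weights

variable {R : Type*} [CommRing R] {n : ℕ} {s h ε c d : ℤ}

/-- The coefficient in weight `c` when `X` has the weight `s`. -/
def weightCoeff (s c : ℤ) (f : R[X]) : R :=
  f.sum fun e x => if s * (e : ℤ) = c then x else 0

theorem weightCoeff_eq (hs : s ≠ 0) {e : ℕ} (he : s * (e : ℤ) = c) (f : R[X]) :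
    weightCoeff s c f = f.coeff e := by
  rw [weightCoeff, sum_def, Finset.sum_eq_single e (fun e' _ hne => if_neg fun h' => hne ?_)
    (fun hnot => ?_), if_pos he]
  · exact_mod_cast mul_left_cancel₀ hs (h'.trans he.symm)
  · rw [if_pos he, notMem_support_iff.1 hnot]

theorem weightCoeff_eq_zero (f : R[X]) (hf : ∀ e : ℕ, f.coeff e ≠ 0 → s * (e : ℤ) ≠ c) :
    weightCoeff s c f = 0 := by
  rw [weightCoeff, sum_def]
  exact Finset.sum_eq_zero fun e he => if_neg (hf e (mem_support_iff.1 he))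

theorem weightCoeff_neg (hs : s ≠ 0) (f : R[X]) :
    weightCoeff s c (-f) = -weightCoeff s c f := by
  by_cases he : ∃ e : ℕ, s * (e : ℤ) = c
  · obtain ⟨e, he⟩ := he
    simp only [weightCoeff_eq hs he, coeff_neg]
  · push Not at he
    rw [weightCoeff_eq_zero _ fun e _ => he e, weightCoeff_eq_zero _ fun e _ => he e, neg_zero]

theorem weightCoeff_sub (hs : s ≠ 0) (f g : R[X]) :
    weightCoeff s c (f - g) = weightCoeff s c f - weightCoeff s c g := by
  by_cases he : ∃ e : ℕ, s * (e : ℤ) = c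
  · obtain ⟨e, he⟩ := he
    simp only [weightCoeff_eq hs he, coeff_sub]
  · push Not at he
    rw [weightCoeff_eq_zero _ fun e _ => he e, weightCoeff_eq_zero _ fun e _ => he e,
      weightCoeff_eq_zero _ fun e _ => he e, sub_zero]

theorem weightCoeff_zero : weightCoeff s c (0 : R[X]) = 0 := sum_zero_index _

theorem weightCoeff_derivative (f : R[X]) :
    weightCoeff 1 (c - 1) (derivative f) = (c : R) * weightCoeff 1 c f := by
  rcases lt_trichotomy c 0 with hc | rfl | hc
  · rw [weightCoeff_eq_zero _ fun e _ => by omega, weightCoeff_eq_zero _ fun e _ => by omega,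
      mul_zero]
  · rw [weightCoeff_eq_zero _ fun e _ => by omega, Int.cast_zero, zero_mul]
  · obtain ⟨e, rfl⟩ : ∃ e : ℕ, c = e + 1 := ⟨(c - 1).toNat, by omega⟩
    rw [weightCoeff_eq one_ne_zero (e := e) (by ring),
      weightCoeff_eq one_ne_zero (e := e + 1) (by push_cast; ring), coeff_derivative]
    push_cast
    ring

/-- All weights are on the side `ε` of `c`. -/
def WeightGe (s h ε c : ℤ) (N : Matrix (Fin n) (Fin n) R[X]) : Prop :=
  ∀ (k l : Fin n) (e : ℕ), (N k l).coeff e ≠ 0 →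
    ε * c ≤ ε * (s * (e : ℤ) + h * ((k : ℤ) - (l : ℤ)))

/-- The part of weight `c`. -/
def lead (s h c : ℤ) (N : Matrix (Fin n) (Fin n) R[X]) : Matrix (Fin n) (Fin n) R :=
  Matrix.of fun k l => weightCoeff s (c - h * ((k : ℤ) - (l : ℤ))) (N k l)

theorem WeightGe.sub {M N : Matrix (Fin n) (Fin n) R[X]} (hM : WeightGe s h ε c M)
    (hN : WeightGe s h ε c N) : WeightGe s h ε c (M - N) := by
  intro k l e he
  rw [Matrix.sub_apply, coeff_sub] at he
  by_cases h1 : (M k l).coeff e = 0
  · exact hN k l e fun h2 => he (by rw [h1, h2, sub_zero])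
  · exact hM k l e h1

theorem lead_sub (hs : s ≠ 0) (M N : Matrix (Fin n) (Fin n) R[X]) :
    lead s h c (M - N) = lead s h c M - lead s h c N := by
  ext k l
  exact weightCoeff_sub hs (M k l) (N k l)

theorem lead_zero : lead s h c (0 : Matrix (Fin n) (Fin n) R[X]) = 0 := by
  ext k l
  simp [lead, weightCoeff_zero]

theorem WeightGe.mono {N : Matrix (Fin n) (Fin n) R[X]} (hN : WeightGe s h ε c N)
    (hd : ε * d ≤ ε * c) : WeightGe s h ε d N :=
  fun k l e he => hd.trans (hN k l e he)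

theorem WeightGe.lead_eq_zero {N : Matrix (Fin n) (Fin n) R[X]} (hN : WeightGe s h ε c N)
    (hd : ε * d < ε * c) : lead s h d N = 0 := by
  ext k l
  refine weightCoeff_eq_zero _ fun e he heq => hd.not_ge ?_
  have h1 := hN k l e he
  rwa [heq, sub_add_cancel] at h1

theorem coeff_mul_weight (hs : s ≠ 0) (hε : ε ≠ 0) {f g : R[X]}
    (hf : ∀ e : ℕ, f.coeff e ≠ 0 → ε * c ≤ ε * (s * (e : ℤ)))
    (hg : ∀ e : ℕ, g.coeff e ≠ 0 → ε * d ≤ ε * (s * (e : ℤ))) :
    (∀ e : ℕ, (f * g).coeff e ≠ 0 → ε * (c + d) ≤ ε * (s * (e : ℤ))) ∧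
      weightCoeff s (c + d) (f * g) = weightCoeff s c f * weightCoeff s d g := by
  have h1 : ∀ e : ℕ, (f * g).coeff e ≠ 0 → ε * (c + d) ≤ ε * (s * (e : ℤ)) := fun e he => by
    rw [coeff_mul] at he
    obtain ⟨⟨x, y⟩, hxy, hne⟩ := Finset.exists_ne_zero_of_sum_ne_zero he
    obtain rfl : x + y = e := Finset.HasAntidiagonal.mem_antidiagonal.1 hxy
    have := hf x (left_ne_zero_of_mul hne)
    have := hg y (right_ne_zero_of_mul hne)
    push_cast
    linarith
  refine ⟨h1, ?_⟩
  -- a product of coefficients in weight `c + d` has factors in weights `c` and `d`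
  have key : ∀ x y : ℕ, f.coeff x * g.coeff y ≠ 0 → s * ((x + y : ℕ) : ℤ) = c + d →
      s * (x : ℤ) = c ∧ s * (y : ℤ) = d := fun x y hne he => by
    have hx := hf x (left_ne_zero_of_mul hne)
    have hy := hg y (right_ne_zero_of_mul hne)
    push_cast at he
    have e1 : ε * (s * (x : ℤ)) + ε * (s * (y : ℤ)) = ε * c + ε * d := by
      linear_combination ε * he
    exact ⟨(mul_left_cancel₀ hε (le_antisymm hx (by linarith))).symm,
      (mul_left_cancel₀ hε (le_antisymm hy (by linarith))).symm⟩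
  by_cases hcd : (∃ x : ℕ, s * (x : ℤ) = c) ∧ ∃ y : ℕ, s * (y : ℤ) = d
  · obtain ⟨⟨x, hx⟩, y, hy⟩ := hcd
    rw [weightCoeff_eq hs hx, weightCoeff_eq hs hy,
      weightCoeff_eq hs (e := x + y) (by push_cast; linear_combination hx + hy), coeff_mul]
    refine Finset.sum_eq_single (x, y) (fun z hz hne => by_contra fun hz0 => hne ?_) fun hnot =>
      (hnot (Finset.HasAntidiagonal.mem_antidiagonal.2 rfl)).elim
    obtain ⟨h1', h2'⟩ := key z.1 z.2 hz0 (by
      rw [Finset.HasAntidiagonal.mem_antidiagonal.1 hz]; push_cast; linear_combination hx + hy)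
    exact Prod.ext (by exact_mod_cast mul_left_cancel₀ hs (h1'.trans hx.symm))
      (by exact_mod_cast mul_left_cancel₀ hs (h2'.trans hy.symm))
  · have h0 : weightCoeff s c f * weightCoeff s d g = 0 := by
      by_contra hne
      refine hcd ⟨by_contra fun hx => left_ne_zero_of_mul hne ?_,
        by_contra fun hy => right_ne_zero_of_mul hne ?_⟩
      · push Not at hx
        exact weightCoeff_eq_zero _ fun e _ => hx e
      · push Not at hy
        exact weightCoeff_eq_zero _ fun e _ => hy e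
    rw [h0]
    refine weightCoeff_eq_zero _ fun e he heq => hcd ?_
    rw [coeff_mul] at he
    obtain ⟨⟨x, y⟩, hxy, hne⟩ := Finset.exists_ne_zero_of_sum_ne_zero he
    obtain rfl : x + y = e := Finset.HasAntidiagonal.mem_antidiagonal.1 hxy
    exact ⟨⟨x, (key x y hne heq).1⟩, y, (key x y hne heq).2⟩

theorem weightCoeff_sum {ι : Type*} (hs : s ≠ 0) (t : Finset ι) (f : ι → R[X]) :
    weightCoeff s c (∑ i ∈ t, f i) = ∑ i ∈ t, weightCoeff s c (f i) := by
  by_cases he : ∃ e : ℕ, s * (e : ℤ) = c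
  · obtain ⟨e, he⟩ := he
    simp only [weightCoeff_eq hs he, finsetSum_coeff]
  · push Not at he
    rw [weightCoeff_eq_zero _ fun e _ => he e]
    exact (Finset.sum_eq_zero fun i _ => weightCoeff_eq_zero _ fun e _ => he e).symm

/-- **The extremal part is multiplicative.** -/
theorem WeightGe.mul (hs : s ≠ 0) (hε : ε ≠ 0) {M N : Matrix (Fin n) (Fin n) R[X]}
    (hM : WeightGe s h ε c M) (hN : WeightGe s h ε d N) :
    WeightGe s h ε (c + d) (M * N) ∧ lead s h (c + d) (M * N) = lead s h c M * lead s h d N := by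
  have key : ∀ k j l : Fin n,
      (∀ e : ℕ, (M k j * N j l).coeff e ≠ 0 →
        ε * (c + d - h * ((k : ℤ) - (l : ℤ))) ≤ ε * (s * (e : ℤ))) ∧
      weightCoeff s (c + d - h * ((k : ℤ) - (l : ℤ))) (M k j * N j l) =
        lead s h c M k j * lead s h d N j l := fun k j l => by
    rw [show c + d - h * ((k : ℤ) - (l : ℤ)) =
      (c - h * ((k : ℤ) - (j : ℤ))) + (d - h * ((j : ℤ) - (l : ℤ))) by ring]
    exact coeff_mul_weight hs hε (fun e he => by linarith [hM k j e he])
      fun e he => by linarith [hN j l e he]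
  constructor
  · intro k l e he
    rw [Matrix.mul_apply, finsetSum_coeff] at he
    obtain ⟨j, -, hj⟩ := Finset.exists_ne_zero_of_sum_ne_zero he
    linarith [(key k j l).1 e hj]
  · ext k l
    rw [lead, Matrix.of_apply, Matrix.mul_apply, Matrix.mul_apply, weightCoeff_sum hs]
    exact Finset.sum_congr rfl fun j _ => (key k j l).2

theorem weightGe_diagonal {f : R[X]}
    (hf : ∀ e : ℕ, f.coeff e ≠ 0 → ε * c ≤ ε * (s * (e : ℤ))) :
    WeightGe s h ε c (Matrix.diagonal fun _ : Fin n => f) ∧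
      lead s h c (Matrix.diagonal fun _ : Fin n => f) =
        Matrix.diagonal fun _ => weightCoeff s c f := by
  constructor
  · intro k l e he
    by_cases hkl : k = l
    · subst hkl
      rw [Matrix.diagonal_apply_eq] at he
      simpa using hf e he
    · simp [Matrix.diagonal_apply_ne _ hkl] at he
  · ext k l
    by_cases hkl : k = l
    · subst hkl
      simp [lead]
    · simp [lead, Matrix.diagonal_apply_ne _ hkl, weightCoeff_zero]

theorem WeightGe.smul (hs : s ≠ 0) (hε : ε ≠ 0) {f : R[X]} {N : Matrix (Fin n) (Fin n) R[X]}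
    (hf : ∀ e : ℕ, f.coeff e ≠ 0 → ε * c ≤ ε * (s * (e : ℤ))) (hN : WeightGe s h ε d N) :
    WeightGe s h ε (c + d) (f • N) ∧
      lead s h (c + d) (f • N) = weightCoeff s c f • lead s h d N := by
  obtain ⟨h1, h2⟩ := weightGe_diagonal (n := n) (h := h) hf
  obtain ⟨h3, h4⟩ := h1.mul hs hε hN
  rw [Matrix.smul_eq_diagonal_mul, Matrix.smul_eq_diagonal_mul, ← h2]
  exact ⟨h3, h4⟩

theorem WeightGe.derivative {N : Matrix (Fin n) (Fin n) R[X]} (hN : WeightGe s h ε c N) :
    WeightGe s h ε (c - s) (N.map Polynomial.derivative) := by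
  intro k l e he
  rw [Matrix.map_apply, coeff_derivative] at he
  have := hN k l (e + 1) (left_ne_zero_of_mul he)
  push_cast at this ⊢
  linarith

theorem weightGe_one (hs : s ≠ 0) :
    WeightGe s h ε 0 (1 : Matrix (Fin n) (Fin n) R[X]) ∧
      lead s h 0 (1 : Matrix (Fin n) (Fin n) R[X]) = 1 := by
  obtain ⟨h1, h2⟩ := weightGe_diagonal (n := n) (h := h) (ε := ε) (c := 0) (s := s)
    (f := (1 : R[X]))
    fun e he => by
      rw [coeff_one] at he
      obtain rfl : e = 0 := by simpa using fun hne => he (if_neg hne)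
      simp
  refine ⟨h1, h2.trans ?_⟩
  rw [weightCoeff_eq hs (e := 0) (by simp), coeff_one_zero]
  rfl

theorem WeightGe.pow (hs : s ≠ 0) (hε : ε ≠ 0) {N : Matrix (Fin n) (Fin n) R[X]}
    (hN : WeightGe s h ε c N) : ∀ m : ℕ, WeightGe s h ε ((m : ℤ) * c) (N ^ m) ∧
      lead s h ((m : ℤ) * c) (N ^ m) = lead s h c N ^ m
  | 0 => by simpa using weightGe_one hs
  | m + 1 => by
    obtain ⟨h1, h2⟩ := hN.pow hs hε m
    obtain ⟨h3, h4⟩ := h1.mul hs hε hN
    rw [show ((m + 1 : ℕ) : ℤ) * c = (m : ℤ) * c + c by push_cast; ring, pow_succ, pow_succ]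
    exact ⟨h3, by rw [h4, h2]⟩

theorem mulVec_pow_eigen {A : Matrix (Fin n) (Fin n) R} {u : Fin n → R} {w : R}
    (hu : A.mulVec u = w • u) : ∀ m : ℕ, (A ^ m).mulVec u = w ^ m • u
  | 0 => by simp
  | m + 1 => by
    rw [pow_succ, ← Matrix.mulVec_mulVec, hu, Matrix.mulVec_smul, mulVec_pow_eigen hu m, smul_smul,
      pow_succ, mul_comm]

theorem mulVec_aeval_eigen {A : Matrix (Fin n) (Fin n) R} {u : Fin n → R} {w : R}
    (hu : A.mulVec u = w • u) (P : R[X]) : (aeval A P).mulVec u = P.eval w • u := by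
  induction P using Polynomial.induction_on' with
  | add f g hf hg => rw [map_add, Matrix.add_mulVec, hf, hg, eval_add, add_smul]
  | monomial m x =>
    rw [aeval_monomial, ← Algebra.smul_def, Matrix.smul_mulVec, mulVec_pow_eigen hu, smul_smul,
      eval_monomial]

end weights

/-- The coefficient of the indicial polynomial. -/
def indicialCoeff {R : Type*} [CommRing R] (a : ℕ → R[X]) (n v l : ℕ) : R :=
  if n - l ≤ v then (a l).coeff (v - (n - l)) else 0

/-- The indicial polynomial. -/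
def indicialPoly {R : Type*} [CommRing R] (a : ℕ → R[X]) (n v : ℕ) : R[X] :=
  ∑ l ∈ Finset.range (n + 1), C (indicialCoeff a n v l) * descPochhammer R l

theorem indicialPoly_map {R S : Type*} [CommRing R] [CommRing S] (φ : R →+* S) (a : ℕ → R[X])
    (n v : ℕ) : (indicialPoly a n v).map φ = indicialPoly (fun j => (a j).map φ) n v := by
  simp only [indicialPoly, indicialCoeff, Polynomial.map_sum, Polynomial.map_mul, map_C,
    descPochhammer_map, coeff_map, apply_ite φ, map_zero]

section field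

variable {K : Type*} [Field K] {n : ℕ} {a : ℕ → K[X]}

/-- The extremal part of the companion matrix. -/
def leadCompanion (lam : ℕ → K) (n : ℕ) : Matrix (Fin n) (Fin n) K :=
  Matrix.of fun k l =>
    if (l : ℕ) = k + 1 then lam n else if (k : ℕ) + 1 = n then -lam l else 0

variable {s h ε : ℤ} {v : ℕ}

theorem weightGe_companion (hs : s ≠ 0)
    (hw : ∀ l ≤ n, ∀ e : ℕ, (a l).coeff e ≠ 0 →
      ε * (s * (v : ℤ) - h * ((n : ℤ) - (l : ℤ))) ≤ ε * (s * (e : ℤ))) :
    WeightGe s h ε (s * (v : ℤ) - h) (companion a n) ∧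
      lead s h (s * (v : ℤ) - h) (companion a n) =
        leadCompanion
          (fun l : ℕ => weightCoeff s (s * (v : ℤ) - h * ((n : ℤ) - (l : ℤ))) (a l)) n := by
  constructor
  · intro k l e he
    simp only [companion, Matrix.of_apply] at he
    split_ifs at he with h1 h2
    · have h' : (l : ℤ) = (k : ℤ) + 1 := by exact_mod_cast h1
      have := hw n le_rfl e he
      rw [h']
      linarith
    · rw [coeff_neg, neg_ne_zero] at he
      have h' : (k : ℤ) + 1 = n := by exact_mod_cast h2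
      have := hw l l.2.le e he
      rw [← h'] at this
      linarith
    · exact absurd (coeff_zero e) he
  · ext k l
    simp only [lead, companion, leadCompanion, Matrix.of_apply]
    split_ifs with h1 h2
    · have h' : (l : ℤ) = (k : ℤ) + 1 := by exact_mod_cast h1
      congr 1
      rw [h']
      ring
    · have h' : (k : ℤ) + 1 = n := by exact_mod_cast h2
      rw [weightCoeff_neg hs]
      congr 2
      rw [← h']
      ring
    · exact weightCoeff_zero

theorem weight_mul_derivative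
    (hw : ∀ e : ℕ, (a n).coeff e ≠ 0 → ε * (s * (v : ℤ)) ≤ ε * (s * (e : ℤ))) (i e : ℕ)
    (he : ((i : K[X]) * derivative (a n)).coeff e ≠ 0) :
    ε * (s * (v : ℤ) - s) ≤ ε * (s * (e : ℤ)) := by
  rw [← C_eq_natCast, coeff_C_mul, coeff_derivative] at he
  have := hw (e + 1) (left_ne_zero_of_mul (right_ne_zero_of_mul he))
  push_cast at this
  linarith

/-- **The irregular case**: the extremal part is a power of the companion matrix. -/
theorem lead_connMat_irregular (hs : s ≠ 0) (hhs : 0 < ε * (h - s))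
    (hw : ∀ l ≤ n, ∀ e : ℕ, (a l).coeff e ≠ 0 →
      ε * (s * (v : ℤ) - h * ((n : ℤ) - (l : ℤ))) ≤ ε * (s * (e : ℤ))) (i : ℕ) :
    WeightGe s h ε ((i : ℤ) * (s * (v : ℤ) - h)) (connMat a n i) ∧
      lead s h ((i : ℤ) * (s * (v : ℤ) - h)) (connMat a n i) =
        (-leadCompanion
          (fun l : ℕ => weightCoeff s (s * (v : ℤ) - h * ((n : ℤ) - (l : ℤ))) (a l)) n) ^ i := by
  have hε : ε ≠ 0 := left_ne_zero_of_mul hhs.ne'
  have hwn : ∀ e : ℕ, (a n).coeff e ≠ 0 → ε * (s * (v : ℤ)) ≤ ε * (s * (e : ℤ)) := fun e he => by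
    simpa using hw n le_rfl e he
  obtain ⟨hC, hCl⟩ := weightGe_companion hs hw
  induction i with
  | zero => simpa [connMat] using weightGe_one hs
  | succ i ih =>
    obtain ⟨hN, hNl⟩ := ih
    obtain ⟨hA, -⟩ := hN.derivative.smul hs hε hwn
    obtain ⟨hB, -⟩ := hN.smul hs hε (weight_mul_derivative hwn i)
    obtain ⟨hD, hDl⟩ := hC.mul hs hε hN
    have e1 : ((i + 1 : ℕ) : ℤ) * (s * (v : ℤ) - h) =
        s * (v : ℤ) - h + (i : ℤ) * (s * (v : ℤ) - h) := by push_cast; ring
    rw [connMat, e1]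
    refine ⟨((hA.mono ?_).sub (hB.mono ?_)).sub hD, ?_⟩
    · nlinarith
    · nlinarith
    rw [lead_sub hs, lead_sub hs, hA.lead_eq_zero (by nlinarith), hB.lead_eq_zero (by nlinarith),
      hDl, hNl, hCl, sub_zero, zero_sub, ← neg_mul, ← pow_succ']

/-- **An irregular singularity forces non-nilpotence.** -/
theorem not_isNilpotent_of_irregular [IsAlgClosed K] (hs : s ≠ 0) (hhs : 0 < ε * (h - s))
    (hw : ∀ l ≤ n, ∀ e : ℕ, (a l).coeff e ≠ 0 →
      ε * (s * (v : ℤ) - h * ((n : ℤ) - (l : ℤ))) ≤ ε * (s * (e : ℤ)))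
    (hq : (a n).coeff v ≠ 0) {j : ℕ} (hj : j < n)
    (hne : weightCoeff s (s * (v : ℤ) - h * ((n : ℤ) - (j : ℤ))) (a j) ≠ 0) (p : ℕ) :
    ¬IsNilpotent (connMat a n p) := by
  rintro ⟨m, hm⟩
  obtain ⟨hN, hNl⟩ := lead_connMat_irregular hs hhs hw p
  have hε : ε ≠ 0 := left_ne_zero_of_mul hhs.ne'
  obtain ⟨-, hpow⟩ := hN.pow hs hε m
  rw [hm, lead_zero, hNl] at hpow
  obtain ⟨lam, hlam⟩ : ∃ lam : ℕ → K,
      lam = fun l : ℕ => weightCoeff s (s * (v : ℤ) - h * ((n : ℤ) - (l : ℤ))) (a l) := ⟨_, rfl⟩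
  rw [← hlam] at hpow
  have hln : lam n ≠ 0 := by
    simp only [hlam, sub_self, mul_zero, sub_zero, weightCoeff_eq hs (e := v) rfl]
    exact hq
  have hlj : lam j ≠ 0 := by simpa [hlam] using hne
  obtain ⟨G, hG⟩ : ∃ G : K[X], G = ∑ l ∈ Finset.range (n + 1), monomial l (lam l) := ⟨_, rfl⟩
  have hGc : ∀ l ≤ n, G.coeff l = lam l := fun l hl => by
    rw [hG, finsetSum_coeff, Finset.sum_eq_single l (fun b _ hb => coeff_monomial_of_ne _ hb.symm)
      (fun hnot => absurd (Finset.mem_range.2 (by omega)) hnot), coeff_monomial_same]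
  have hG0 : G ≠ 0 := fun e => hln (by rw [← hGc n le_rfl, e, coeff_zero])
  obtain ⟨H, hGH, hH⟩ := exists_eq_pow_rootMultiplicity_mul_and_not_dvd G hG0 0
  have hHd : H.natDegree ≠ 0 := fun hd => by
    obtain ⟨x, rfl⟩ := natDegree_eq_zero.1 hd
    have h1 := hGc n le_rfl
    have h2 := hGc j hj.le
    rw [hGH, C_0, sub_zero, mul_comm, coeff_C_mul, coeff_X_pow] at h1 h2
    have e1 : n = G.rootMultiplicity 0 := by_contra fun e =>
      hln (by rw [← h1, if_neg e, mul_zero])
    have e2 : j = G.rootMultiplicity 0 := by_contra fun e =>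
      hlj (by rw [← h2, if_neg e, mul_zero])
    omega
  obtain ⟨z, hz⟩ := IsAlgClosed.exists_root H fun e => hHd (natDegree_eq_of_degree_eq_some e)
  have hz0 : z ≠ 0 := by
    rintro rfl
    exact hH (dvd_iff_isRoot.2 hz)
  have hGz : G.eval z = 0 := by rw [hGH, eval_mul, IsRoot.def.1 hz, mul_zero]
  rw [hG, eval_finsetSum, Finset.sum_range_succ] at hGz
  simp only [eval_monomial] at hGz
  obtain ⟨u, hu⟩ : ∃ u : Fin n → K, u = fun k : Fin n => z ^ (k : ℕ) := ⟨_, rfl⟩
  have heig : (-leadCompanion lam n).mulVec u = (-(lam n * z)) • u := by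
    rw [Matrix.neg_mulVec, neg_smul]
    congr 1
    ext k
    simp only [Matrix.mulVec, dotProduct, leadCompanion, Matrix.of_apply, hu, Pi.smul_apply,
      smul_eq_mul]
    by_cases hk : (k : ℕ) + 1 = n
    · have : ∀ l : Fin n, ¬(l : ℕ) = (k : ℕ) + 1 := fun l => by omega
      simp only [this, if_false]
      simp only [hk, if_true, neg_mul, Finset.sum_neg_distrib]
      rw [Fin.sum_univ_eq_sum_range (fun l => lam l * z ^ l) n, mul_assoc, ← pow_succ', hk]
      linear_combination -hGz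
    · rw [Finset.sum_eq_single (⟨(k : ℕ) + 1, by omega⟩ : Fin n) (fun l _ hl => ?_)
        (fun hnot => absurd (Finset.mem_univ _) hnot), if_pos rfl, pow_succ]
      · ring
      · rw [if_neg fun h' => hl (Fin.ext h'), if_neg hk, zero_mul]
  have h0 := mulVec_pow_eigen heig (p * m)
  rw [pow_mul, ← hpow, Matrix.zero_mulVec] at h0
  have h1 := congrFun h0 ⟨0, by omega⟩
  simp only [hu, Pi.zero_apply, Pi.smul_apply, smul_eq_mul, pow_zero, mul_one] at h1
  exact pow_ne_zero _ (neg_ne_zero.2 (mul_ne_zero hln hz0)) h1.symm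

/-- **Nilpotence implies regularity.** -/
theorem regular_of_isNilpotent [IsAlgClosed K] {p : ℕ} (hε : ε = 1 ∨ ε = -1)
    (hv : ∀ e : ℕ, (a n).coeff e ≠ 0 → ε * (v : ℤ) ≤ ε * (e : ℤ)) (hq : (a n).coeff v ≠ 0)
    (hnil : IsNilpotent (connMat a n p)) :
    ∀ l ≤ n, ∀ e : ℕ, (a l).coeff e ≠ 0 →
      ε * ((v : ℤ) - ((n : ℤ) - (l : ℤ))) ≤ ε * (e : ℤ) := by
  intro l hl e he
  by_contra hlt
  have hln : l < n := by
    refine hl.lt_of_ne fun hh => hlt ?_
    subst hh
    simpa using hv e he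
  obtain ⟨⟨j, e₀⟩, hmem, hmax⟩ := Finset.exists_max_image
    ((Finset.range n).sigma fun j => (a j).support)
    (fun x : (_ : ℕ) × ℕ => ((ε * ((v : ℤ) - (x.2 : ℤ)) : ℤ) : ℚ) / ((n : ℚ) - (x.1 : ℚ)))
    ⟨⟨l, e⟩, Finset.mem_sigma.2 ⟨Finset.mem_range.2 hln, mem_support_iff.2 he⟩⟩
  simp only [Finset.mem_sigma, Finset.mem_range, mem_support_iff] at hmem hmax
  have hcross : ∀ l' < n, ∀ e' : ℕ, (a l').coeff e' ≠ 0 →
      ε * ((v : ℤ) - (e' : ℤ)) * ((n : ℤ) - (j : ℤ)) ≤
        ε * ((v : ℤ) - (e₀ : ℤ)) * ((n : ℤ) - (l' : ℤ)) := fun l' hl' e' he' => by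
    have h1 := hmax ⟨l', e'⟩ ⟨hl', he'⟩
    rw [div_le_div_iff₀ (by simpa using hl') (by simpa using hmem.1)] at h1
    exact_mod_cast h1
  have hjn : (0 : ℤ) < (n : ℤ) - (j : ℤ) := by omega
  refine not_isNilpotent_of_irregular (s := (n : ℤ) - (j : ℤ)) (h := (v : ℤ) - (e₀ : ℤ))
    (ε := ε) (v := v) hjn.ne' ?_ ?_ hq hmem.1 ?_ p hnil
  · have h1 := hcross l hln e he
    have h2 : (0 : ℤ) < (n : ℤ) - (l : ℤ) := by omega
    rcases hε with rfl | rfl <;> nlinarith
  · intro l' hl' e' he'
    rcases hl'.lt_or_eq with h1 | rfl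
    · nlinarith [hcross l' h1 e' he']
    · have := mul_le_mul_of_nonneg_right (hv e' he') hjn.le
      simp only [sub_self, mul_zero, sub_zero]
      linarith
  · rw [weightCoeff_eq hjn.ne' (e := e₀) (by ring)]
    exact hmem.2

theorem weightCoeff_indicial (l : ℕ) (hl : l ≤ n) :
    weightCoeff 1 ((v : ℤ) - ((n : ℤ) - (l : ℤ))) (a l) = indicialCoeff a n v l := by
  unfold indicialCoeff
  split_ifs with h1
  · exact weightCoeff_eq one_ne_zero (by omega) (a l)
  · exact weightCoeff_eq_zero _ fun e _ => by omega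

/-- `-Λ - q k`, whose spectrum is `-q` times the exponents. -/
def residueMatrix (a : ℕ → K[X]) (n v : ℕ) : Matrix (Fin n) (Fin n) K :=
  -leadCompanion (indicialCoeff a n v) n -
    Matrix.diagonal fun k : Fin n => (a n).coeff v * ((k : ℕ) : K)

/-- **The regular case**: the extremal part, column by column. -/
theorem lead_connMat_regular (hε : ε ≠ 0)
    (hw : ∀ l ≤ n, ∀ e : ℕ, (a l).coeff e ≠ 0 →
      ε * ((v : ℤ) - ((n : ℤ) - (l : ℤ))) ≤ ε * (e : ℤ)) (i : ℕ) :
    WeightGe 1 1 ε ((i : ℤ) * ((v : ℤ) - 1)) (connMat a n i) ∧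
      ∀ k l : Fin n, lead 1 1 ((i : ℤ) * ((v : ℤ) - 1)) (connMat a n i) k l =
        aeval (residueMatrix a n v) (∏ t ∈ Finset.range i,
          (X + C ((a n).coeff v * (((l : ℕ) : K) - (t : K))))) k l := by
  have hwn : ∀ e : ℕ, (a n).coeff e ≠ 0 → ε * (1 * (v : ℤ)) ≤ ε * (1 * (e : ℤ)) := fun e he => by
    simpa using hw n le_rfl e he
  obtain ⟨hC, hCl⟩ := weightGe_companion (s := 1) (h := 1) (ε := ε) (v := v) one_ne_zero
    fun l hl e he => by simpa using hw l hl e he
  have hL : lead 1 1 (1 * (v : ℤ) - 1) (companion a n) =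
      leadCompanion (indicialCoeff a n v) n := by
    rw [hCl]
    ext k l
    simp only [leadCompanion, Matrix.of_apply, one_mul]
    rw [weightCoeff_indicial (l : ℕ) l.2.le, weightCoeff_indicial n le_rfl]
  induction i with
  | zero =>
    simp only [connMat, Nat.cast_zero, zero_mul, Finset.range_zero, Finset.prod_empty, map_one]
    exact ⟨(weightGe_one one_ne_zero).1, fun k l => by rw [(weightGe_one (ε := ε) one_ne_zero).2]⟩
  | succ i ih =>
    obtain ⟨hN, hX⟩ := ih
    obtain ⟨hA, hAl⟩ := hN.derivative.smul one_ne_zero hε hwn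
    obtain ⟨hB, hBl⟩ := hN.smul one_ne_zero hε (weight_mul_derivative hwn i)
    obtain ⟨hD, hDl⟩ := hC.mul one_ne_zero hε hN
    have e1 : ((i + 1 : ℕ) : ℤ) * ((v : ℤ) - 1) =
        1 * (v : ℤ) - 1 + (i : ℤ) * ((v : ℤ) - 1) := by push_cast; ring
    have e2 : 1 * (v : ℤ) + ((i : ℤ) * ((v : ℤ) - 1) - 1) =
        1 * (v : ℤ) - 1 + (i : ℤ) * ((v : ℤ) - 1) := by ring
    rw [e2] at hA hAl
    rw [connMat, e1]
    refine ⟨(hA.sub hB).sub hD, fun k l => ?_⟩
    rw [Finset.prod_range_succ, mul_comm _ (X + C _), map_mul, map_add, aeval_X, aeval_C,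
      add_mul, Matrix.add_apply, ← Algebra.smul_def, Matrix.smul_apply, ← hX k l,
      Matrix.mul_apply]
    simp only [lead_sub one_ne_zero, Matrix.sub_apply, hAl, hBl, hDl, hL, Matrix.smul_apply,
      smul_eq_mul, Matrix.mul_apply, ← hX]
    rw [show (∑ j, residueMatrix a n v k j *
        lead 1 1 ((i : ℤ) * ((v : ℤ) - 1)) (connMat a n i) j l) =
      -(∑ j, leadCompanion (indicialCoeff a n v) n k j *
        lead 1 1 ((i : ℤ) * ((v : ℤ) - 1)) (connMat a n i) j l) -
      (a n).coeff v * ((k : ℕ) : K) *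
        lead 1 1 ((i : ℤ) * ((v : ℤ) - 1)) (connMat a n i) k l by
      simp only [residueMatrix, Matrix.sub_apply, Matrix.neg_apply, sub_mul, neg_mul,
        Finset.sum_sub_distrib, Finset.sum_neg_distrib, Matrix.diagonal_apply, ite_mul, zero_mul,
        Finset.sum_ite_eq, Finset.mem_univ, if_true]]
    have h1 : weightCoeff 1 (1 * (v : ℤ)) (a n) = (a n).coeff v :=
      weightCoeff_eq one_ne_zero rfl _
    have h2 : weightCoeff 1 (1 * (v : ℤ) - 1) ((i : K[X]) * derivative (a n)) =
        (i : K) * (v : K) * (a n).coeff v := by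
      rw [← derivative_natCast_mul, weightCoeff_derivative, one_mul,
        weightCoeff_eq one_ne_zero (one_mul _), ← C_eq_natCast, coeff_C_mul]
      push_cast
      ring
    have h3 : lead 1 1 ((i : ℤ) * ((v : ℤ) - 1) - 1) ((connMat a n i).map derivative) k l =
        (((i : ℤ) * ((v : ℤ) - 1) - ((k : ℤ) - (l : ℤ)) : ℤ) : K) *
          lead 1 1 ((i : ℤ) * ((v : ℤ) - 1)) (connMat a n i) k l := by
      simp only [lead, Matrix.of_apply, Matrix.map_apply, one_mul]
      rw [← weightCoeff_derivative]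
      congr 1
      ring
    rw [h1, h2, h3]
    push_cast
    ring

/-- **Nilpotence puts the exponents into the prime field.** -/
theorem exponent_natCast_of_isNilpotent [IsAlgClosed K] {p : ℕ} [Fact p.Prime] [CharP K p]
    (hε : ε = 1 ∨ ε = -1)
    (hv : ∀ e : ℕ, (a n).coeff e ≠ 0 → ε * (v : ℤ) ≤ ε * (e : ℤ)) (hq : (a n).coeff v ≠ 0)
    (hnil : IsNilpotent (connMat a n p)) {ρ : K} (hρ : (indicialPoly a n v).IsRoot ρ) :
    ∃ m : ℕ, ρ = (m : K) := by
  have hε0 : ε ≠ 0 := by omega
  have hqn : indicialCoeff a n v n = (a n).coeff v := by simp [indicialCoeff]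
  have hsum := IsRoot.def.1 hρ
  rw [indicialPoly, eval_finsetSum, Finset.sum_range_succ] at hsum
  simp only [eval_mul, eval_C] at hsum
  rcases Nat.eq_zero_or_pos n with hn | hn
  · subst hn
    exact absurd (by simpa [hqn] using hsum) hq
  obtain ⟨hN, hX⟩ := lead_connMat_regular hε0 (regular_of_isNilpotent hε hv hq hnil) p
  obtain ⟨q, hqdef⟩ : ∃ q, q = (a n).coeff v := ⟨_, rfl⟩
  rw [← hqdef] at hX hqn hq
  -- the product does not depend on the column
  have hprod : ∀ l : ℕ, ∏ t ∈ Finset.range p, (X + C (q * ((l : K) - (t : K)))) =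
      ∏ x : ZMod p, (X + C (q * ZMod.castHom (dvd_refl p) K x)) := fun l => by
    refine Finset.prod_nbij' (fun t : ℕ => (l : ZMod p) - (t : ZMod p))
      (fun x : ZMod p => ((l : ZMod p) - x).val) (fun _ _ => Finset.mem_univ _)
      (fun x _ => Finset.mem_range.2 (ZMod.val_lt _))
      (fun t ht => ?_) (fun x _ => ?_) fun t _ => ?_
    · simp [ZMod.val_natCast, Nat.mod_eq_of_lt (Finset.mem_range.1 ht)]
    · simp
    · rw [map_sub, map_natCast, map_natCast]
  have hlead : lead 1 1 ((p : ℤ) * ((v : ℤ) - 1)) (connMat a n p) =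
      aeval (residueMatrix a n v) (∏ x : ZMod p, (X + C (q * ZMod.castHom (dvd_refl p) K x))) := by
    ext k l
    rw [hX k l, hprod]
  obtain ⟨m, hm⟩ := hnil
  obtain ⟨-, hpow⟩ := hN.pow one_ne_zero hε0 m
  rw [hm, lead_zero, hlead, ← map_pow] at hpow
  obtain ⟨u, hu⟩ : ∃ u : Fin n → K, u = fun k : Fin n => (descPochhammer K k).eval ρ := ⟨_, rfl⟩
  have hsucc : ∀ k : ℕ, (descPochhammer K (k + 1)).eval ρ =
      (descPochhammer K k).eval ρ * (ρ - (k : K)) := fun k => descPochhammer_succ_eval k ρ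
  have heig : (residueMatrix a n v).mulVec u = (-(q * ρ)) • u := by
    ext k
    simp only [residueMatrix, Matrix.sub_mulVec, Matrix.neg_mulVec, Pi.sub_apply, Pi.neg_apply,
      Matrix.mulVec_diagonal, Pi.smul_apply, smul_eq_mul, ← hqdef]
    simp only [Matrix.mulVec, dotProduct, leadCompanion, Matrix.of_apply, hu]
    by_cases hk : (k : ℕ) + 1 = n
    · have : ∀ l : Fin n, ¬(l : ℕ) = (k : ℕ) + 1 := fun l => by omega
      simp only [this, if_false]
      simp only [hk, if_true, neg_mul, Finset.sum_neg_distrib]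
      rw [Fin.sum_univ_eq_sum_range
        (fun l => indicialCoeff a n v l * (descPochhammer K l).eval ρ) n]
      have h1 := hsucc k
      rw [hk] at h1
      rw [hqn, h1] at hsum
      linear_combination hsum
    · rw [Finset.sum_eq_single (⟨(k : ℕ) + 1, by omega⟩ : Fin n) (fun l _ hl => ?_)
        (fun hnot => absurd (Finset.mem_univ _) hnot), if_pos rfl, hsucc, hqn]
      · ring
      · rw [if_neg fun h' => hl (Fin.ext h'), if_neg hk, zero_mul]
  have h0 := mulVec_aeval_eigen heig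
    ((∏ x : ZMod p, (X + C (q * ZMod.castHom (dvd_refl p) K x))) ^ m)
  rw [← hpow, Matrix.zero_mulVec] at h0
  have h1 := congrFun h0 ⟨0, hn⟩
  simp only [hu, Pi.zero_apply, Pi.smul_apply, smul_eq_mul, descPochhammer_zero, eval_one, mul_one,
    eval_pow, eval_prod, eval_add, eval_X, eval_C] at h1
  obtain ⟨x, -, hx⟩ := Finset.prod_eq_zero_iff.1 (eq_zero_of_pow_eq_zero h1.symm)
  refine ⟨x.val, ?_⟩
  rw [← map_natCast (ZMod.castHom (dvd_refl p) K), ZMod.natCast_zmod_val]
  refine mul_left_cancel₀ hq ?_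
  linear_combination -hx

end field

end FA.GlobalNilpotence
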